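/-
MLT / [L2] / (G-out) (architect helper9), part 4: **the value of `T̃_ℓ g = N_ᾱ (β̄ g)` at a place of
`X₀(K)_{𝔽̄_q}`** (rigid level `K`, `q ∤ K ℓ`).

If `g ∈ E = tbBarF 𝔓 K` has the value `c Q ∈ 𝕜ˣ` at every `Q` in the support of `β̄_* ᾱ^* P = mltjBrT … P`,
then `N_ᾱ (β̄ g)` has the value `∏_Q (c Q) ^ (β̄_* ᾱ^* P)(Q)` at `P`.
-/
import Fermat.Agent.Lib.MLT.Contracts.L2JL
import Fermat.Agent.Lib.MLT.L2.GOut.NormCorr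
import Fermat.Agent.Lib.Delta.Hecke.NormBar

set_option autoImplicit false
set_option linter.unusedSectionVars false
set_option linter.unusedVariables false
set_option linter.style.haveILetI false
set_option synthInstance.maxHeartbeats 400000

namespace Fermat.Agent.MLT

open ModularCurve HahnSeries Fermat.Agent.T1 Fermat.Agent.T2 Fermat.Agent.TW
  Fermat.Agent.Delta Fermat.Agent.T3 AlgebraicCurve Fermat.Agent.Curve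
  Fermat.Agent.Ihara Fermat.Agent.Mazur

local notation "Qb" => AlgebraicClosure ℚ

noncomputable section

attribute [local instance] t2i_dvr t2i_isAlgClosed t2i_charP t2i_fact
attribute [local instance 5000] dlhAlgK

variable (𝔓 : FFPlace) (K : ℕ) [NeZero K] (hK : ¬ 𝔓.p ∣ K) (h49 : 4 ∣ K ∨ 9 ∣ K)
  (ℓ : ℕ) [NeZero ℓ] (hℓ : ℓ.Prime) (hℓp : ℓ ≠ 𝔓.p)

include h49 in
/-- **the value of `N_ᾱ (β̄ g)` at `P`** -/
theorem mltjg_brT_value (g : ↥(tbBarF 𝔓 K))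
    (P : Place (IsLocalRing.ResidueField ↥𝔓.P) ↥(tbBarF 𝔓 K))
    (c : Place (IsLocalRing.ResidueField ↥𝔓.P) ↥(tbBarF 𝔓 K) → (IsLocalRing.ResidueField ↥𝔓.P)ˣ)
    (hc : ∀ Q, mltjBrT 𝔓 K hK ℓ hℓ hℓp (Finsupp.single P 1) Q ≠ 0 →
      DlgVal Q g ((c Q : (IsLocalRing.ResidueField ↥𝔓.P)ˣ) : IsLocalRing.ResidueField ↥𝔓.P)) :
    DlgVal P (@Algebra.norm ↥(tbBarF 𝔓 K) ↥(tbBarF 𝔓 (K * ℓ)) _ _
        (algebraAlong (dlhAlphaC (IsLocalRing.ResidueField ↥𝔓.P) K ℓ))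
        (dlhBetaC (IsLocalRing.ResidueField ↥𝔓.P) K ℓ g))
      (((mltjBrT 𝔓 K hK ℓ hℓ hℓp (Finsupp.single P 1)).prod (fun Q n => c Q ^ n) :
        (IsLocalRing.ResidueField ↥𝔓.P)ˣ) : IsLocalRing.ResidueField ↥𝔓.P) := by
  have h49' : 4 ∣ K * ℓ ∨ 9 ∣ K * ℓ := h49.imp (fun h => h.mul_right ℓ) (fun h => h.mul_right ℓ)
  have hKℓ : ¬ 𝔓.p ∣ K * ℓ := dlh_not_dvd_mul 𝔓 hK hℓ hℓp
  haveI := ihbc_hasPrincipalDivisors 𝔓 (K * ℓ) hKℓ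
  haveI := (tkr_barOK 𝔓 h49 hK).sep
  exact mltjg_norm_corr_value (dlhAlphaC (IsLocalRing.ResidueField ↥𝔓.P) K ℓ)
    (dlhBetaC (IsLocalRing.ResidueField ↥𝔓.P) K ℓ) (mzr5i_alphaC_integral 𝔓 K ℓ)
    (mzr5p_integral_beta (IsLocalRing.ResidueField ↥𝔓.P) K ℓ)
    (tkr_barOK 𝔓 h49 hK).gen (tkr_barOK 𝔓 h49' hKℓ).gen
    (dlh_separable_alphaC 𝔓 h49 hK hℓ hℓp) g P c hc

end

end Fermat.Agent.MLT
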