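/-
MLT / [L2] / (G-out) (architect helper9), part 2: **the value of a norm at a place, in any characteristic**.

`K` algebraically closed, `F'/F` a finite SEPARABLE extension of function fields over `K` for which the
fundamental identity holds (`mzr_fundamentalIdentityAlong`), `v` a place of `F`.  If `h : F'` has the value
`c w ∈ K` at every place `w` of `F'` over `v`, then `N_{F'/F} h` has the value `∏_w (c w) ^ e(w)` at `v`.

(`t3h_norm_value` is the characteristic zero version; here the order formula is `mzr5n_ord_norm`.)
-/
import Mathlib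
import Fermat.Prelude.Def_AlgebraicCurve_Correspondence
import Fermat.Agent.Lib.MLT.L2.GOut.NormRes
import Fermat.Agent.Lib.T3.Hecke.NormValuePlace
import Fermat.Agent.Lib.T3.Hecke.AlongValue
import Fermat.Agent.Lib.Mazur.Red.R5.NormSep

set_option autoImplicit false
set_option linter.unusedSectionVars false
set_option linter.unusedVariables false
set_option linter.style.haveILetI false

namespace Fermat.Agent.MLT

open AlgebraicCurve IsDedekindDomain WithZero Fermat.Agent.Curve Fermat.Agent.Curve.PlaceAux
  Fermat.Agent.T3 Fermat.Agent.Mazur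

section

variable {K F F' : Type*} [Field K] [Field F] [Field F'] [Algebra K F] [Algebra K F']
  [Algebra F F'] [IsScalarTower K F F'] [FiniteDimensional F F'] [Algebra.IsSeparable F F']
  (v : Place K F)

attribute [local instance] t3hS_isDedekindDomain t3hS_isFractionRing t3hS_moduleFinite
  t3hS_algebra t3hS_isScalarTower t3hS_fintype

variable [IsAlgClosed K] [HasPrincipalDivisors K F']

/-- the order formula `MltjgNormOrd` for the integral closure of `O_v`, from `mzr5n_ord_norm` -/
theorem mltjg_normOrd (hFI : FundamentalIdentity K F F') {x : F} (hx : IsFunctionFieldGen K F x)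
    {x' : F'} (hx' : IsFunctionFieldGen K F' x') :
    haveI : Module.Free v.toValuationSubring (t3hS F' v) :=
      Module.free_of_finite_type_torsion_free'
    MltjgNormOrd v.toValuationSubring (t3hS F' v) := by
  haveI : Module.Free v.toValuationSubring (t3hS F' v) :=
    Module.free_of_finite_type_torsion_free'
  intro s hs
  have hsF : algebraMap (t3hS F' v) F' s ≠ 0 := by
    rwa [ne_eq, IsFractionRing.to_map_eq_zero_iff]
  have hN : algebraMap v.toValuationSubring F (Algebra.norm v.toValuationSubring s)
      = Algebra.norm F (algebraMap (t3hS F' v) F' s) := by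
    rw [← Algebra.intNorm_eq_norm, Algebra.algebraMap_intNorm (A := v.toValuationSubring)
      (K := F) (L := F') (B := t3hS F' v)]
  have hN0 : Algebra.norm F (algebraMap (t3hS F' v) F' s) ≠ 0 := by
    rw [ne_eq, Algebra.norm_eq_zero_iff]
    exact hsF
  have hord := mzr5n_ord_norm v hFI hx hx' (algebraMap (t3hS F' v) F' s) hsF
  -- back to valuations
  have h1 : v.adicValuation (Algebra.norm F (algebraMap (t3hS F' v) F' s))
      = ∏ Q : HeightOneSpectrum (t3hS F' v),
          (t3hPlace v Q).adicValuation (algebraMap (t3hS F' v) F' s) := by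
    have hne : ∏ Q : HeightOneSpectrum (t3hS F' v),
        (t3hPlace v Q).adicValuation (algebraMap (t3hS F' v) F' s) ≠ 0 :=
      Finset.prod_ne_zero_iff.mpr fun Q _ => (t3hPlace v Q).adicValuation_ne_zero hsF
    rw [← exp_log (v.adicValuation_ne_zero hN0), ← exp_log hne]
    congr 1
    rw [t3h_log_prod _ _ (fun Q _ => (t3hPlace v Q).adicValuation_ne_zero hsF)]
    have h2 : -v.ord (Algebra.norm F (algebraMap (t3hS F' v) F' s))
        = -∑ Q : HeightOneSpectrum (t3hS F' v),
            (t3hPlace v Q).ord (algebraMap (t3hS F' v) F' s) := by rw [hord]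
    rw [Place.ord, neg_neg, ← Finset.sum_neg_distrib] at h2
    rw [h2]
    refine Finset.sum_congr rfl fun Q _ => ?_
    rw [Place.ord, neg_neg]
  rw [← hN, show v.adicValuation = (t3hMax v.toValuationSubring).valuation F from rfl,
    HeightOneSpectrum.valuation_of_algebraMap] at h1
  rw [h1]
  refine Finset.prod_congr rfl fun Q _ => ?_
  rw [t3hPlace_adicValuation, HeightOneSpectrum.valuation_of_algebraMap]

/-- **value of a norm at a place**, indexed by the primes of the integral closure of `O_v` -/
theorem mltjg_norm_value_aux (hFI : FundamentalIdentity K F F') {x : F}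
    (hx : IsFunctionFieldGen K F x) {x' : F'}
    (hx' : IsFunctionFieldGen K F' x') (h : F')
    (c : HeightOneSpectrum (t3hS F' v) → K)
    (hc : ∀ Q, OrdGE (t3hPlace v Q) (h - algebraMap K F' (c Q)) 1) :
    OrdGE v (Algebra.norm F h
      - algebraMap K F (∏ Q, c Q ^ (t3hPlace v Q).ramificationIndex F)) 1 := by
  haveI : IsAlgClosed (IsLocalRing.ResidueField v.toValuationSubring) :=
    t3h_isAlgClosed_residueField v hx
  haveI : Module.Free v.toValuationSubring (t3hS F' v) :=
    Module.free_of_finite_type_torsion_free'
  -- `h` is integral over `O_v`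
  have hint : h ∈ (algebraMap (t3hS F' v) F').range := by
    apply HeightOneSpectrum.mem_integers_of_valuation_le_one
    intro Q
    rw [← t3hPlace_adicValuation, ← Fermat.Agent.Curve.PlaceAux.mem_iff_adicValuation_le_one]
    have h1 : h - algebraMap K F' (c Q) ∈ (t3hPlace v Q).toValuationSubring :=
      (ordGE_zero_iff_mem _).mp ((hc Q).mono _ (by norm_num))
    have h2 := (t3hPlace v Q).toValuationSubring.add_mem _ _ h1 (algebraMap_mem _ (c Q))
    rwa [sub_add_cancel] at h2
  obtain ⟨xS, rfl⟩ := hint
  obtain ⟨t, ht⟩ := IsDiscreteValuationRing.exists_irreducible v.toValuationSubring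
  have hres := mltjg_residue_norm (R := v.toValuationSubring) (S := t3hS F' v)
    (mltjg_normOrd v hFI hx hx') ht.maximalIdeal_eq
    (fun Q => (t3hPlace v Q).ramificationIndex F) (t3h_intValuation_uniformizer v t ht) xS
    (fun Q => algebraMap K v.toValuationSubring (c Q)) (fun Q => by
      rw [t3h_mem_iff_ordGE]
      have heq : algebraMap (t3hS F' v) F'
          (xS - algebraMap v.toValuationSubring (t3hS F' v)
            (algebraMap K v.toValuationSubring (c Q)))
          = algebraMap (t3hS F' v) F' xS - algebraMap K F' (c Q) := by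
        rw [map_sub]
        congr 1
        show algebraMap F F' (algebraMap K F (c Q)) = algebraMap K F' (c Q)
        rw [← IsScalarTower.algebraMap_apply]
      rw [heq]
      exact hc Q)
  -- translate back
  have hN : algebraMap v.toValuationSubring F (Algebra.norm v.toValuationSubring xS)
      = Algebra.norm F (algebraMap (t3hS F' v) F' xS) := by
    rw [← Algebra.intNorm_eq_norm, Algebra.algebraMap_intNorm (A := v.toValuationSubring)
      (K := F) (L := F') (B := t3hS F' v)]
  rw [← hN]
  have hmem : Algebra.norm v.toValuationSubring xS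
      - algebraMap K v.toValuationSubring (∏ Q, c Q ^ (t3hPlace v Q).ramificationIndex F)
      ∈ IsLocalRing.maximalIdeal v.toValuationSubring := by
    rw [← IsLocalRing.residue_eq_zero_iff, map_sub, hres, sub_eq_zero, map_prod, map_prod]
    refine Finset.prod_congr rfl fun Q _ => ?_
    rw [map_pow, map_pow]
  exact (t3h_ordGE_one_iff v _).mpr hmem

/-- **value of a norm at a place**: if `h` has the value `c w` at every `w ∣ v`, then `N h` has
the value `∏_{w ∣ v} (c w) ^ e(w)` at `v` -/
theorem mltjg_norm_value (hFI : FundamentalIdentity K F F') {x : F}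
    (hx : IsFunctionFieldGen K F x)
    {x' : F'} (hx' : IsFunctionFieldGen K F' x') (h : F') (c : Place K F' → K)
    (hc : ∀ w ∈ v.fiber F', OrdGE w (h - algebraMap K F' (c w)) 1) :
    OrdGE v (Algebra.norm F h
      - algebraMap K F (∏ w ∈ v.fiber F', c w ^ w.ramificationIndex F)) 1 := by
  classical
  have h1 := mltjg_norm_value_aux v hFI hx hx' h (fun Q => c (t3hPlace v Q)) (fun Q =>
    hc _ (Place.mem_fiber.mpr (t3hPlace_restrict v Q)))
  rw [← t3h_image_eq_fiber v, Finset.prod_image fun Q _ Q' _ h => t3hPlace_injective v h]
  exact h1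

end

section Along

variable {K F F' : Type*} [Field K] [Field F] [Field F'] [Algebra K F] [Algebra K F']
  [IsAlgClosed K]

open IntermediateField in
/-- **value of a norm along `φ`**, `F' / φ F` separable, any characteristic: if `h` has the value `c w`
at every place `w` of `F'` over `v`, then `N h` has the value `∏_w (c w) ^ e(w)` at `v` -/
theorem mltjg_norm_value_along [HasPrincipalDivisors K F'] {x : F} (hx : IsFunctionFieldGen K F x)
    [Algebra.IsSeparable ↥(K⟮x⟯) F]
    {x' : F'} (hx' : IsFunctionFieldGen K F' x') (φ : F →ₐ[K] F')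
    (hφ : φ.toRingHom.IsIntegral)
    (hsep : letI := algebraAlong φ; Algebra.IsSeparable F F')
    (v : Place K F) (h : F') (c : Place K F' → K)
    (hc : ∀ w ∈ Place.fiberAlong φ hφ v, OrdGE w (h - algebraMap K F' (c w)) 1) :
    OrdGE v (t3hNormAlong φ h
      - algebraMap K F (∏ w ∈ Place.fiberAlong φ hφ v, c w ^ w.ramificationIndexAlong φ)) 1 := by
  have hFI := mzr_fundamentalIdentityAlong hx hx' φ hφ hsep
  letI := algebraAlong φ
  haveI := isScalarTower_along φ
  haveI := isIntegral_along φ hφ
  haveI : Module.Finite F F' := t3h_finiteAlong hx hx' φ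
  haveI : Algebra.IsSeparable F F' := hsep
  exact mltjg_norm_value v hFI hx hx' h c hc

end Along

end Fermat.Agent.MLT
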