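/-
MLT / [L2] / (G-out) (architect helper9), part 3: **the value of `N_φ (ψ g)` at a place is the product of the
values of `g` over the correspondence `ψ_* φ^*`** (any characteristic, `F' / φ F` separable).

`K` algebraically closed, `φ, ψ : F → F'` homomorphisms of function fields over `K`, `P` a place of `F`,
`T P = ψ_* φ^* P = Σ_{W ∣_φ P} e_φ(W) · (W ∣_ψ)`.  If `g ∈ F` has the value `c Q ∈ Kˣ` at every `Q` in the
support of `T P`, then `N_φ (ψ g)` has the value `∏_Q (c Q) ^ (T P)(Q)` at `P`.
-/
import Mathlib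
import Fermat.Prelude.Def_AlgebraicCurve_Correspondence
import Fermat.Agent.Lib.MLT.L2.GOut.NormValueP
import Fermat.Agent.Lib.Mazur.Red.R5.Restrict
import Fermat.Agent.Lib.Delta.Glue.Defs

set_option autoImplicit false
set_option linter.unusedSectionVars false
set_option linter.unusedVariables false
set_option linter.style.haveILetI false

namespace Fermat.Agent.MLT

open AlgebraicCurve IsDedekindDomain WithZero Fermat.Agent.Curve Fermat.Agent.Curve.PlaceAux
  Fermat.Agent.T3 Fermat.Agent.Mazur Fermat.Agent.Delta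

section Gen

variable {K F F' : Type*} [Field K] [Field F] [Field F'] [Algebra K F] [Algebra K F']
  [IsAlgClosed K] [HasPrincipalDivisors K F']
  (φ ψ : F →ₐ[K] F') (hφ : φ.toRingHom.IsIntegral) (hψ : ψ.toRingHom.IsIntegral)

/-- the relative residue degrees along a homomorphism are one -/
theorem mltjg_inertiaDegAlong {x' : F'} (hx' : IsFunctionFieldGen K F' x') (w : Place K F') :
    w.inertiaDegAlong ψ hψ = 1 := by
  letI := algebraAlong ψ
  haveI := isScalarTower_along ψ
  haveI := isIntegral_along ψ hψ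
  exact t3h_place_inertiaDeg_eq_one hx' w

/-- **the correspondence at a point** -/
theorem mltjg_corr_single {x' : F'} (hx' : IsFunctionFieldGen K F' x') (P : Place K F) :
    Divisor.correspondence φ ψ hφ hψ (Finsupp.single P 1)
      = ∑ W ∈ Place.fiberAlong φ hφ P,
          Finsupp.single (W.restrictAlong ψ hψ) ((W.ramificationIndexAlong φ : ℕ) : ℤ) := by
  rw [Divisor.correspondence_apply, Divisor.pullbackAlong_single, map_sum]
  refine Finset.sum_congr rfl fun W _ => ?_
  rw [Divisor.pushforwardAlong_single, mltjg_inertiaDegAlong ψ hψ hx' W, one_mul, Nat.cast_one,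
    mul_one]

/-- the restrictions along `ψ` of the places over `P` along `φ` lie in the support of `ψ_* φ^* P` -/
theorem mltjg_corr_supp {x' : F'} (hx' : IsFunctionFieldGen K F' x') (P : Place K F)
    {W : Place K F'} (hW : W ∈ Place.fiberAlong φ hφ P) :
    Divisor.correspondence φ ψ hφ hψ (Finsupp.single P 1) (W.restrictAlong ψ hψ) ≠ 0 := by
  classical
  rw [mltjg_corr_single φ ψ hφ hψ hx' P, Finsupp.finsetSum_apply]
  have h1 : ∀ W' ∈ Place.fiberAlong φ hφ P,
      (0 : ℤ) ≤ (Finsupp.single (W'.restrictAlong ψ hψ)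
        ((W'.ramificationIndexAlong φ : ℕ) : ℤ) : Place K F →₀ ℤ) (W.restrictAlong ψ hψ) := by
    intro W' _
    rw [Finsupp.single_apply]
    split_ifs
    · exact Int.natCast_nonneg _
    · exact le_rfl
  have h2 := Finset.single_le_sum h1 hW
  rw [Finsupp.single_eq_same] at h2
  have h3 := mzr5_ramificationIndexAlong_pos φ hφ W
  have h4 : (0 : ℤ) < ((W.ramificationIndexAlong φ : ℕ) : ℤ) := by exact_mod_cast h3
  exact ne_of_gt (lt_of_lt_of_le h4 h2)

/-- the product over the correspondence at a point -/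
theorem mltjg_corr_prod {x' : F'} (hx' : IsFunctionFieldGen K F' x') (P : Place K F)
    (c : Place K F → Kˣ) :
    (Divisor.correspondence φ ψ hφ hψ (Finsupp.single P 1)).prod (fun Q n => c Q ^ n)
      = ∏ W ∈ Place.fiberAlong φ hφ P,
          c (W.restrictAlong ψ hψ) ^ (W.ramificationIndexAlong φ) := by
  classical
  rw [mltjg_corr_single φ ψ hφ hψ hx' P,
    ← Finsupp.prod_finsetSum_index (fun Q => zpow_zero (c Q)) (fun Q n m => zpow_add (c Q) n m)]
  refine Finset.prod_congr rfl fun W _ => ?_
  rw [Finsupp.prod_single_index (zpow_zero _), zpow_natCast]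

open IntermediateField in
/-- **the value of `N_φ (ψ g)` at `P`** -/
theorem mltjg_norm_corr_value {x : F} (hx : IsFunctionFieldGen K F x)
    [Algebra.IsSeparable ↥(K⟮x⟯) F] {x' : F'} (hx' : IsFunctionFieldGen K F' x')
    (hsep : letI := algebraAlong φ; Algebra.IsSeparable F F')
    (g : F) (P : Place K F) (c : Place K F → Kˣ)
    (hc : ∀ Q, Divisor.correspondence φ ψ hφ hψ (Finsupp.single P 1) Q ≠ 0 →
      DlgVal Q g ((c Q : Kˣ) : K)) :
    DlgVal P (t3hNormAlong φ (ψ g))
      (((Divisor.correspondence φ ψ hφ hψ (Finsupp.single P 1)).prod (fun Q n => c Q ^ n) : Kˣ) :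
        K) := by
  have h1 := mltjg_norm_value_along hx hx' φ hφ hsep P (ψ g)
    (fun w => ((c (w.restrictAlong ψ hψ) : Kˣ) : K)) (fun w hw =>
      mzr5_value_map ψ hψ w (hc _ (mltjg_corr_supp φ ψ hφ hψ hx' P hw)))
  rw [mltjg_corr_prod φ ψ hφ hψ hx' P c, Units.coe_prod]
  simp only [Units.val_pow_eq_pow_val]
  exact h1

end Gen

end Fermat.Agent.MLT
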