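/-
MLT / [L2-JL] (helper4): **the rigid (G-out) assembly, part 1: the entry of Theorem R**.

`q = 𝔓.p ∤ K`, `K` rigid (`4 ∣ K ∨ 9 ∣ K`), `p ≠ q` an odd prime, `W[p]` irreducible.  A non-zero class `x` of the
`W`-eigenspace of `J₀(K q q)[p]` which is fixed by the inertia group and killed by the two push-forwards to the level
`K q` either forces residual modularity of the level `K q` (abelian part) or is the Kummer class of a function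
`y ∈ D.U` over the inertia field with ALL the properties consumed by Theorem R:

* `y ∈ tWsub L (K q q) p`, the Kummer condition over `ℚ̄`, class of `y` = `x`;
* the two norm relations `N_α y = c g^p`, `N_β y = c' g'^p`;
* `y` is a unit at the triple points of chart 1 (`MltjUnitAtTriple`);
* the three residues of `y` are `p`-th powers (`MltL2AbTriv`);
* the eigen-relations `T_ℓ^fun (Φ y) · (Φ y)^(-a_ℓ) = t^p` for all good `ℓ`;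
* `y` is NOT a constant times a `p`-th power.

Inputs: helper1 `mltj2_triv`, `mltj1_norms_D`, `mltj2_class_mul_const_pow`, `mltj1_class_eq_zero`; helper3 `mltj3_ab`,
`mltj3_eigen_fun`; helper5 `mltj4_stripAt`; helper7 `mltj5_vertHecke`.
-/
import Fermat.Agent.Lib.MLT.Contracts.L2GOut
import Fermat.Agent.Lib.MLT.L2.P2.StepB
import Fermat.Agent.Lib.MLT.L2.P3.Ab
import Fermat.Agent.Lib.MLT.L2.P4.StripAt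
import Fermat.Agent.Lib.MLT.L2.HkVert

set_option autoImplicit false
set_option linter.unusedSectionVars false
set_option linter.unusedVariables false
set_option linter.style.haveILetI false
set_option synthInstance.maxHeartbeats 400000

open WeierstrassCurve

namespace Fermat.Agent.MLT

open ModularCurve HahnSeries Fermat.Agent.T1 Fermat.Agent.T2 Fermat.Agent.T4 Fermat.Agent.TW
  Fermat.Agent.Delta Fermat.Agent.T3 Fermat.Agent.Alpha AlgebraicCurve Fermat.Agent.Curve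

local notation "Qb" => AlgebraicClosure ℚ
local notation "GQ" => (AlgebraicClosure ℚ ≃ₐ[ℚ] AlgebraicClosure ℚ)

noncomputable section

/-! ### Abstract algebra -/

/-- a `p`-th power residue stays one after multiplication by a `p`-th power -/
theorem mltjr_isPow_mul {U E : Type*} [Group U] [CommGroup E] (r : U →* E) (y s : U) (p : ℕ)
    (h : ∃ t : E, r y = t ^ p) : ∃ t : E, r (y * s ^ p) = t ^ p := by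
  obtain ⟨t, ht⟩ := h
  exact ⟨t * r s, by rw [map_mul, map_pow, ht, mul_pow]⟩

/-- a norm relation stays one after multiplication by a `p`-th power -/
theorem mltjr_rel_mul {F F1 L : Type*} [CommGroup F] [CommGroup F1] [CommGroup L] (Nn : F →* F1)
    (cc : L →* F1) (y s : F) (p : ℕ) (h : ∃ (c : L) (g : F1), Nn y = cc c * g ^ p) :
    ∃ (c : L) (g : F1), Nn (y * s ^ p) = cc c * g ^ p := by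
  obtain ⟨c, g, hcg⟩ := h
  exact ⟨c, g * Nn s, by rw [map_mul, map_pow, hcg, mul_pow, mul_assoc]⟩

/-- `A · Y^(-a) = t^p` in the form `A = Y^a · t^p` -/
theorem mltjr_eigen_form {G : Type*} [CommGroup G] (A Y t : G) (a : ℤ) (p : ℕ)
    (h : A * Y ^ (-a) = t ^ p) : A = Y ^ a * t ^ p := by
  rw [← h, mul_comm A, ← mul_assoc, ← zpow_add, add_neg_cancel, zpow_zero, one_mul]

/-- a prime `ℓ ≠ q` which does not divide `K` does not divide `K q q` -/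
theorem mltjr_not_dvd {ℓ q K : ℕ} (hℓ : ℓ.Prime) (hq : q.Prime) (hℓq : ℓ ≠ q) (hℓK : ¬ ℓ ∣ K) :
    ¬ ℓ ∣ K * q * q := by
  intro h
  have hq' : ¬ ℓ ∣ q := fun h' => hℓq ((Nat.prime_dvd_prime_iff_eq hℓ hq).mp h')
  rcases (Nat.Prime.dvd_mul hℓ).mp h with h1 | h1
  · rcases (Nat.Prime.dvd_mul hℓ).mp h1 with h2 | h2
    · exact hℓK h2
    · exact hq' h2
  · exact hq' h1

/-- the coercion of `y * s ^ p` from a subgroup -/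
theorem mltjr_coe_mul_pow {G : Type*} [Group G] (H : Subgroup G) (y s : ↥H) (p : ℕ) :
    ((y * s ^ p : ↥H) : G) = (y : G) * (s : G) ^ p := rfl

/-! ### The entry of Theorem R -/

section Main

attribute [local instance] t2i_dvr t2i_isAlgClosed t2i_charP t2i_fact t2iAlgebra t2i_isScalarTower

variable (𝔓 : FFPlace) (K : ℕ) [NeZero K] (hK : ¬ 𝔓.p ∣ K) {ζ : Qb} (hζ : IsPrimitiveRoot ζ 𝔓.p)
  (h49 : 4 ∣ K ∨ 9 ∣ K)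

/-- **the bundle of the properties of `y ∈ D.U` consumed by Theorem R** (`x` = the class of `y`) -/
def MltjrEntry (p : ℕ) (hp0 : p ≠ 0) (hpq : Nat.Coprime p 𝔓.p) (W : WeierstrassCurve ℤ)
    (x : JZero (K * 𝔓.p * 𝔓.p)) (y : ↥(t4niAFix 𝔓 K hK hζ p).U) : Prop :=
  (y : (↥(tbLevF 𝔓 (K * 𝔓.p * 𝔓.p) ⊤))ˣ) ∈ tWsub ↥(tbFix 𝔓 (⊤ : Subgroup 𝔓.I)) (K * 𝔓.p * 𝔓.p) p ∧
  (∃ hy : ∀ P : Place Qb ↥(modularFunctionFieldBar (K * 𝔓.p * 𝔓.p)),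
      (p : ℤ) ∣ P.ord ((mltl2PhiU 𝔓 (K * 𝔓.p * 𝔓.p) (y : (↥(tbLevF 𝔓 (K * 𝔓.p * 𝔓.p) ⊤))ˣ) :
        (↥(modularFunctionFieldBar (K * 𝔓.p * 𝔓.p)))ˣ) : ↥(modularFunctionFieldBar (K * 𝔓.p * 𝔓.p))),
    alpfClass hp0 (mltl2PhiU 𝔓 (K * 𝔓.p * 𝔓.p) (y : (↥(tbLevF 𝔓 (K * 𝔓.p * 𝔓.p) ⊤))ˣ)) hy = x) ∧
  (∃ (c : (↥(tbFix 𝔓 (⊤ : Subgroup 𝔓.I)))ˣ) (g : (↥(tbLevF 𝔓 (K * 𝔓.p) ⊤))ˣ),
    (t4niAFix 𝔓 K hK hζ p).Nα y = (t4niAFix 𝔓 K hK hζ p).cF1 c * g ^ p) ∧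
  (∃ (c : (↥(tbFix 𝔓 (⊤ : Subgroup 𝔓.I)))ˣ) (g : (↥(tbLevF 𝔓 (K * 𝔓.p) ⊤))ˣ),
    (t4niAFix 𝔓 K hK hζ p).Nβ y = (t4niAFix 𝔓 K hK hζ p).cF1 c * g ^ p) ∧
  MltjUnitAtTriple 𝔓 K hK hζ
    (((y : (↥(tbLevF 𝔓 (K * 𝔓.p * 𝔓.p) ⊤))ˣ)) : ↥(tbLevF 𝔓 (K * 𝔓.p * 𝔓.p) ⊤)) ∧
  MltL2AbTriv 𝔓 K hK hζ p hp0 hpq y ∧
  (∀ (ℓ : ℕ) [NeZero ℓ], ℓ.Prime → ℓ ≠ 𝔓.p → ¬ ℓ ∣ K → W.IsGoodPrimeFor ℓ → ℓ ≠ p →
    ∃ t : (↥(modularFunctionFieldBar (K * 𝔓.p * 𝔓.p)))ˣ,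
      tkrHeckeUnits (K * 𝔓.p * 𝔓.p) ℓ
          (mltl2PhiU 𝔓 (K * 𝔓.p * 𝔓.p) (y : (↥(tbLevF 𝔓 (K * 𝔓.p * 𝔓.p) ⊤))ˣ)) =
        mltl2PhiU 𝔓 (K * 𝔓.p * 𝔓.p) (y : (↥(tbLevF 𝔓 (K * 𝔓.p * 𝔓.p) ⊤))ˣ) ^ (W.apOfModel ℓ) *
          t ^ p) ∧
  ¬ ∃ (c : (↥(tbFix 𝔓 (⊤ : Subgroup 𝔓.I)))ˣ) (t : (↥(tbLevF 𝔓 (K * 𝔓.p * 𝔓.p) ⊤))ˣ),
    (y : (↥(tbLevF 𝔓 (K * 𝔓.p * 𝔓.p) ⊤))ˣ) = (t4niAFix 𝔓 K hK hζ p).cF c * t ^ p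

/-- the Kummer class of a constant times a `p`-th power vanishes (`D.cF` form) -/
theorem mltjr_class_eq_zero (p : ℕ) (hp0 : p ≠ 0)
    (y : (↥(tbLevF 𝔓 (K * 𝔓.p * 𝔓.p) ⊤))ˣ)
    (hy : ∀ P : Place Qb ↥(modularFunctionFieldBar (K * 𝔓.p * 𝔓.p)),
      (p : ℤ) ∣ P.ord ((mltl2PhiU 𝔓 (K * 𝔓.p * 𝔓.p) y :
        (↥(modularFunctionFieldBar (K * 𝔓.p * 𝔓.p)))ˣ) : ↥(modularFunctionFieldBar (K * 𝔓.p * 𝔓.p))))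
    (h : ∃ (c : (↥(tbFix 𝔓 (⊤ : Subgroup 𝔓.I)))ˣ) (t : (↥(tbLevF 𝔓 (K * 𝔓.p * 𝔓.p) ⊤))ˣ),
      y = (t4niAFix 𝔓 K hK hζ p).cF c * t ^ p) :
    alpfClass hp0 (mltl2PhiU 𝔓 (K * 𝔓.p * 𝔓.p) y) hy = 0 := by
  obtain ⟨c, t, hct⟩ := h
  refine mltj1_class_eq_zero 𝔓 (K * 𝔓.p * 𝔓.p) hp0 y hy
    ⟨(c : ↥(tbFix 𝔓 (⊤ : Subgroup 𝔓.I))), (t : ↥(tbLevF 𝔓 (K * 𝔓.p * 𝔓.p) ⊤)), ?_⟩
  rw [hct, Units.val_mul, Units.val_pow_eq_pow_val, Algebra.smul_def]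
  rfl

include h49 in
/-- **the entry of Theorem R**: a non-zero inertia-fixed `q`-new class of the `W`-eigenspace either forces residual
modularity of the level `K q` or is the class of some `y ∈ D.U` with all the properties of `MltjrEntry` -/
theorem mltjr_entry (p : ℕ) (hp : p.Prime) (hp2 : p ≠ 2) (hpq : Nat.Coprime p 𝔓.p)
    (W : WeierstrassCurve ℤ) (hΔ : W.Δ ≠ 0) (hirr : W.ModRepIsIrreducible p)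
    (x : JZero (K * 𝔓.p * 𝔓.p)) (hx0 : x ≠ 0) (hxE : x ∈ dlwEig (K * 𝔓.p * 𝔓.p) p W)
    (hI : ∀ σ ∈ 𝔓.I, σ • x = x)
    (hA : dlwPushA (K * 𝔓.p) 𝔓.p x = 0) (hB : dlwPushB (K * 𝔓.p) 𝔓.p x = 0) :
    W.IsResiduallyModularOfLevel p (K * 𝔓.p) ∨
    ∃ y : ↥(t4niAFix 𝔓 K hK hζ p).U, MltjrEntry 𝔓 K hK hζ p hp.ne_zero hpq W x y := by
  have hvert : MltjVertHeckeAt 𝔓 K hK hζ p := mltj5_vertHecke 𝔓 K hK hζ p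
  have hab : MltL2AbAt 𝔓 K hK hζ p hp.ne_zero hpq W := mltj3_ab 𝔓 K hK hζ p hp hpq h49 W
  have H := mltj2_triv 𝔓 K hK hζ p hp hp2 hpq hvert W hΔ hirr hab x hxE hI
  refine H.imp id fun H2 => ?_
  obtain ⟨y, hyL, htriv, hy, hcl⟩ := H2
  -- the norm relations
  have hA' : dlwPushA (K * 𝔓.p) 𝔓.p (alpfClass hp.ne_zero (mltj1PhiU 𝔓 (K * 𝔓.p * 𝔓.p)
      (y : (↥(tbLevF 𝔓 (K * 𝔓.p * 𝔓.p) ⊤))ˣ)) hy) = 0 := by rw [hcl]; exact hA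
  have hB' : dlwPushB (K * 𝔓.p) 𝔓.p (alpfClass hp.ne_zero (mltj1PhiU 𝔓 (K * 𝔓.p * 𝔓.p)
      (y : (↥(tbLevF 𝔓 (K * 𝔓.p * 𝔓.p) ⊤))ˣ)) hy) = 0 := by rw [hcl]; exact hB
  have hnorms := mltj1_norms_D 𝔓 K hK hζ hp.ne_zero hpq
    (y : (↥(tbLevF 𝔓 (K * 𝔓.p * 𝔓.p) ⊤))ˣ) hy hA' hB'
  obtain ⟨hα, hβ⟩ := hnorms
  -- the strip
  have hst := mltj4_stripAt 𝔓 K hK hζ h49 p hp.ne_zero y hyL
  obtain ⟨s, hs⟩ := hst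
  -- the new function `y * s ^ p`
  have hsL : ((s : (↥(tbLevF 𝔓 (K * 𝔓.p * 𝔓.p) ⊤))ˣ)) ^ p ∈
      tWsub ↥(tbFix 𝔓 (⊤ : Subgroup 𝔓.I)) (K * 𝔓.p * 𝔓.p) p :=
    t4n_pow_mem_tWsub 𝔓 (K * 𝔓.p * 𝔓.p) p _
  have hy₁L : ((y * s ^ p : ↥(t4niAFix 𝔓 K hK hζ p).U) : (↥(tbLevF 𝔓 (K * 𝔓.p * 𝔓.p) ⊤))ˣ) ∈
      tWsub ↥(tbFix 𝔓 (⊤ : Subgroup 𝔓.I)) (K * 𝔓.p * 𝔓.p) p :=
    Subgroup.mul_mem _ hyL hsL
  have hy₁ : ∀ P : Place Qb ↥(modularFunctionFieldBar (K * 𝔓.p * 𝔓.p)),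
      (p : ℤ) ∣ P.ord ((mltj1PhiU 𝔓 (K * 𝔓.p * 𝔓.p)
        ((y : (↥(tbLevF 𝔓 (K * 𝔓.p * 𝔓.p) ⊤))ˣ) * (s : (↥(tbLevF 𝔓 (K * 𝔓.p * 𝔓.p) ⊤))ˣ) ^ p) :
          (↥(modularFunctionFieldBar (K * 𝔓.p * 𝔓.p)))ˣ) :
            ↥(modularFunctionFieldBar (K * 𝔓.p * 𝔓.p))) := by
    intro P
    rw [map_mul, map_pow, Units.val_mul, P.ord_mul (Units.ne_zero _) (Units.ne_zero _),
      Units.val_pow_eq_pow_val, ← zpow_natCast, P.ord_zpow]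
    exact dvd_add (hy P) (dvd_mul_right _ _)
  have hcl₁ : alpfClass hp.ne_zero (mltj1PhiU 𝔓 (K * 𝔓.p * 𝔓.p)
      ((y : (↥(tbLevF 𝔓 (K * 𝔓.p * 𝔓.p) ⊤))ˣ) * (s : (↥(tbLevF 𝔓 (K * 𝔓.p * 𝔓.p) ⊤))ˣ) ^ p)) hy₁ = x := by
    rw [← hcl]
    refine mltj2_class_mul_const_pow 𝔓 (K * 𝔓.p * 𝔓.p) hp.ne_zero _ _ hy hy₁
      ⟨1, ((s : (↥(tbLevF 𝔓 (K * 𝔓.p * 𝔓.p) ⊤))ˣ) : ↥(tbLevF 𝔓 (K * 𝔓.p * 𝔓.p) ⊤)), ?_⟩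
    rw [one_smul, Units.val_pow_eq_pow_val]
  have hα₁ := mltjr_rel_mul (t4niAFix 𝔓 K hK hζ p).Nα (t4niAFix 𝔓 K hK hζ p).cF1
    (y : (↥(tbLevF 𝔓 (K * 𝔓.p * 𝔓.p) ⊤))ˣ) (s : (↥(tbLevF 𝔓 (K * 𝔓.p * 𝔓.p) ⊤))ˣ) p hα
  have hβ₁ := mltjr_rel_mul (t4niAFix 𝔓 K hK hζ p).Nβ (t4niAFix 𝔓 K hK hζ p).cF1
    (y : (↥(tbLevF 𝔓 (K * 𝔓.p * 𝔓.p) ⊤))ˣ) (s : (↥(tbLevF 𝔓 (K * 𝔓.p * 𝔓.p) ⊤))ˣ) p hβ
  have htriv₁ : MltL2AbTriv 𝔓 K hK hζ p hp.ne_zero hpq (y * s ^ p) :=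
    ⟨mltjr_isPow_mul _ y s p htriv.1, mltjr_isPow_mul _ y s p htriv.2.1,
      mltjr_isPow_mul _ y s p htriv.2.2⟩
  refine ⟨y * s ^ p, hy₁L, ⟨hy₁, hcl₁⟩, hα₁, hβ₁, hs, htriv₁, ?_, ?_⟩
  · -- the eigen-relations
    intro ℓ _ hℓ hℓq hℓK hgood hℓp
    have hℓN : ¬ ℓ ∣ K * 𝔓.p * 𝔓.p := mltjr_not_dvd hℓ 𝔓.hp hℓq hℓK
    have heig := hxE.2 ℓ hℓ hℓN hgood hℓp
    rw [← hcl₁] at heig
    have ht := mltj3_eigen_fun (K * 𝔓.p * 𝔓.p) hℓ hℓN hp.ne_zero _ hy₁ (W.apOfModel ℓ) heig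
    exact ht.imp fun t ht => mltjr_eigen_form _ _ _ _ _ ht
  · -- non-triviality
    intro hct
    apply hx0
    rw [← hcl₁]
    exact mltjr_class_eq_zero 𝔓 K hK hζ p hp.ne_zero _ hy₁ hct

end Main

end

end Fermat.Agent.MLT
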