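/-
MLT / [L2-JL] (helper4): **the rigid (G-out) assembly**: `MltjTheoremRAt → MltjGeomOutAt`, and the global form
`MltjGeomOut` from Theorem R at all rigid levels.

`x` --(`mltjr_entry`, `GOut/RigidPre.lean`)--> residual modularity of the level `K q`, or a unit `y ∈ D.U` with all the
hypotheses of Theorem R (`Contracts/L2R.lean`); Theorem R gives a function `f` of `E` with values in `𝕜ˣ` on `Σ`;
`ξ P :=` the value of `f` at `P` (`P ∈ Σ`), `1` otherwise.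
-/
import Fermat.Agent.Lib.MLT.Contracts.L2R
import Fermat.Agent.Lib.MLT.L2.GOut.RigidPre

set_option autoImplicit false
set_option linter.unusedSectionVars false
set_option linter.unusedVariables false
set_option linter.style.haveILetI false
set_option synthInstance.maxHeartbeats 400000

open WeierstrassCurve

namespace Fermat.Agent.MLT

open ModularCurve HahnSeries Fermat.Agent.T1 Fermat.Agent.T2 Fermat.Agent.T4 Fermat.Agent.TW
  Fermat.Agent.Delta Fermat.Agent.T3 Fermat.Agent.Alpha AlgebraicCurve Fermat.Agent.Curve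

local notation "Qb" => AlgebraicClosure ℚ
local notation "GQ" => (AlgebraicClosure ℚ ≃ₐ[ℚ] AlgebraicClosure ℚ)

noncomputable section

attribute [local instance 5000] dlhAlgK

/-- a function on a set with prescribed values, extended by `1` -/
theorem mltjr_choose_xi {X k : Type*} [One k] (S : Set X) (Pr : X → k → Prop)
    (h : ∀ P ∈ S, ∃ c : k, Pr P c) : ∃ ξ : X → k, ∀ P ∈ S, Pr P (ξ P) := by
  classical
  refine ⟨fun P => if hP : P ∈ S then Classical.choose (h P hP) else 1, fun P hP => ?_⟩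
  simp only [dif_pos hP]
  exact Classical.choose_spec (h P hP)

section Main

variable (𝔓 : FFPlace) (K : ℕ) [NeZero K] (hK : ¬ 𝔓.p ∣ K) {ζ : Qb} (hζ : IsPrimitiveRoot ζ 𝔓.p)
  (h49 : 4 ∣ K ∨ 9 ∣ K)

/-- **(G-out) at a rigid level from Theorem R** -/
theorem mltjr_geomOutAt (p : ℕ) (hp : p.Prime) (hp2 : p ≠ 2) (hpq : Nat.Coprime p 𝔓.p)
    (W : WeierstrassCurve ℤ) (hΔ : W.Δ ≠ 0) (hirr : W.ModRepIsIrreducible p)
    (hR : MltjTheoremRAt 𝔓 K hK hζ h49 p hp.ne_zero hpq W) :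
    MltjGeomOutAt 𝔓 K hK h49 p W := by
  intro x hx0 hxE hfix hpA hpB
  have H := mltjr_entry 𝔓 K hK hζ h49 p hp hp2 hpq W hΔ hirr x hx0 hxE hfix hpA hpB
  refine H.imp id fun H2 => ?_
  refine H2.elim fun y hE => ?_
  have hyL := hE.1
  have hα := hE.2.2.1
  have hβ := hE.2.2.2.1
  have hunit := hE.2.2.2.2.1
  have htriv := hE.2.2.2.2.2.1
  have heig := hE.2.2.2.2.2.2.1
  have hne := hE.2.2.2.2.2.2.2
  refine hE.2.1.elim fun hy _ => ?_
  refine htriv.1.elim fun g₁ h₁ => ?_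
  refine htriv.2.1.elim fun g₂ h₂ => ?_
  refine htriv.2.2.elim fun g₃ h₃ => ?_
  have R := hR y hyL hy hα hβ hunit g₁ g₂ g₃ h₁ h₂ h₃ heig hne
  refine R.elim fun f hf => ?_
  have hval := hf.2.1
  have hξ := hf.2.2
  have hex := mltjr_choose_xi (mltjSS 𝔓 K hK h49)
    (fun P (c : (IsLocalRing.ResidueField ↥𝔓.P)ˣ) =>
      DlgVal P ((f : (↥(tbBarF 𝔓 K))ˣ) : ↥(tbBarF 𝔓 K))
        ((c : (IsLocalRing.ResidueField ↥𝔓.P)ˣ) : IsLocalRing.ResidueField ↥𝔓.P)) hval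
  refine hex.elim fun ξ hξval => ?_
  exact ⟨ξ, hξ ξ hξval⟩

end Main

/-- **(G-out) at all rigid levels from Theorem R at all rigid levels** -/
theorem mltjr_geomOut
    (hR : ∀ (p : ℕ) (hp : p.Prime), p ≠ 2 →
      ∀ (W : WeierstrassCurve ℤ), W.Δ ≠ 0 → W.IsSemistableModel → W.ModRepIsIrreducible p →
        ∀ (𝔓 : FFPlace) (K : ℕ) [NeZero K] (hK : ¬ 𝔓.p ∣ K) {ζ : Qb} (hζ : IsPrimitiveRoot ζ 𝔓.p)
          (h49 : 4 ∣ K ∨ 9 ∣ K) (hpq : Nat.Coprime p 𝔓.p), p ∣ 𝔓.p ^ 2 - 1 →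
          MltjTheoremRAt 𝔓 K hK hζ h49 p hp.ne_zero hpq W) :
    MltjGeomOut := by
  intro p hp hp2 W hΔ hss hirr 𝔓 K _ hK h49 hqp hdvd
  have hpq : Nat.Coprime p 𝔓.p := (Nat.coprime_primes hp 𝔓.hp).mpr (Ne.symm hqp)
  obtain ⟨ζ, hζ⟩ := t4cy_exists_zeta 𝔓
  exact mltjr_geomOutAt 𝔓 K hK hζ h49 p hp hp2 hpq W hΔ hirr
    (hR p hp hp2 W hΔ hss hirr 𝔓 K hK hζ h49 hpq hdvd)

end

end Fermat.Agent.MLT
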