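/-
MLT / [L2-JL] (helper4): **`MltjGeomOut` closed**: the rigid (G-out) at all rigid levels, from

* Theorem R at helper9's literal (helper5, `P4/TheoremRAt.lean`: `mltj4_theoremRAt`),
* (d) `MltjTripleHeckeAt` (helper7, `HkTripleFix.lean`: `mltj5_unit_triple`, curried form; the bridge is here),
* (BR-SS) (helper2, `P7/BrSS.lean`: `mltj7_brSSAt`),
* the assembly `mltjr_geomOut` (`GOut/Rigid.lean`).
-/
import Fermat.Agent.Lib.MLT.L2.GOut.Rigid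
import Fermat.Agent.Lib.MLT.L2.P4.TheoremRAt
import Fermat.Agent.Lib.MLT.L2.HkTripleFix
import Fermat.Agent.Lib.MLT.L2.P7.BrSS

set_option autoImplicit false
set_option linter.unusedSectionVars false
set_option linter.unusedVariables false
set_option linter.style.haveILetI false
set_option synthInstance.maxHeartbeats 400000

open WeierstrassCurve

namespace Fermat.Agent.MLT

open ModularCurve HahnSeries Fermat.Agent.T1 Fermat.Agent.T2 Fermat.Agent.T4 Fermat.Agent.TW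
  Fermat.Agent.Delta Fermat.Agent.T3 Fermat.Agent.Alpha AlgebraicCurve Fermat.Agent.Curve

local notation "Qb" => AlgebraicClosure ℚ

noncomputable section

/-- **(d)** at helper9's literal, from helper7's curried form (any level prime to `q`) -/
theorem mltjr_tripleHeckeAt (𝔓 : FFPlace) (K : ℕ) [NeZero K] (hK : ¬ 𝔓.p ∣ K) {ζ : Qb}
    (hζ : IsPrimitiveRoot ζ 𝔓.p) (p : ℕ) : MltjTripleHeckeAt 𝔓 K hK hζ p :=
  fun ℓ _ hℓ hℓK y y' h hu 𝔫 h𝔫 =>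
    mltj5_unit_triple 𝔓 K hK hζ p ℓ hℓ hℓK y y' h (fun 𝔫 a b c d => hu 𝔫 ⟨a, b, c, d⟩) 𝔫
      h𝔫.1 h𝔫.2.1 h𝔫.2.2.1 h𝔫.2.2.2

/-- **Theorem R at a rigid level, unconditional** -/
theorem mltjr_theoremRAt (𝔓 : FFPlace) (K : ℕ) [NeZero K] (hK : ¬ 𝔓.p ∣ K) {ζ : Qb}
    (hζ : IsPrimitiveRoot ζ 𝔓.p) (h49 : 4 ∣ K ∨ 9 ∣ K) (p : ℕ) (hp0 : p ≠ 0)
    (hpq : Nat.Coprime p 𝔓.p) (W : WeierstrassCurve ℤ) :
    MltjTheoremRAt 𝔓 K hK hζ h49 p hp0 hpq W :=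
  mltj4_theoremRAt 𝔓 K hK hζ h49 p hp0 hpq (mltjr_tripleHeckeAt 𝔓 K hK hζ p)
    (mltj7_brSSAt 𝔓 K hK h49) W

/-- **(G-out) at all rigid levels** -/
theorem mltjr_geomOut_main : MltjGeomOut :=
  mltjr_geomOut fun p hp _ W _ _ _ 𝔓 K _ hK _ hζ h49 hpq _ =>
    mltjr_theoremRAt 𝔓 K hK hζ h49 p hp.ne_zero hpq W

end

end Fermat.Agent.MLT
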